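import Fermat.Agent.F4.Loc.Unr1.Galois

/-!
# F4 / Loc / UNR1 (helper90): `Gal(E(ζ_m)/E)` is generated by the Frobenius; all degrees occur
-/

set_option autoImplicit false
set_option linter.style.haveILetI false
set_option linter.unusedSectionVars false

open Polynomial IntermediateField

namespace Fermat.Agent.F4.Loc

variable {E Ω : Type*} [Field E] [Field Ω] [Algebra E Ω] [CharZero E] [IsAlgClosed Ω]
  [Algebra.IsAlgebraic E Ω] {Γ₀ : Type*} [LinearOrderedCommGroupWithZero Γ₀]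

theorem unr1_isGalois {m : ℕ} (hm : 0 < m) {ζ : Ω} (hζ : IsPrimitiveRoot ζ m) :
    IsGalois E E⟮ζ⟯ := by
  haveI : NeZero m := ⟨hm.ne'⟩
  haveI := hζ.intermediateField_adjoin_isCyclotomicExtension E
  exact IsCyclotomicExtension.isGalois {m} E E⟮ζ⟯

/-- The Frobenius of `E⟮ζ⟯/E` exists and generates the Galois group. -/
theorem unr1_cyclic (w : Valuation Ω Γ₀) (hinv : IsInvVal E w)
    (h : HasFiniteResidue (resVal E w)) {m : ℕ}
    (hm : Nat.Coprime m (resCard (resVal E w))) {ζ : Ω} (hζ : IsPrimitiveRoot ζ m) :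
    ∃ φ : E⟮ζ⟯ ≃ₐ[E] E⟮ζ⟯,
      ((φ (AdjoinSimple.gen E ζ) : E⟮ζ⟯) : Ω) = ζ ^ resCard (resVal E w) ∧
      ∀ σ : E⟮ζ⟯ ≃ₐ[E] E⟮ζ⟯, σ ∈ Subgroup.zpowers φ := by
  have hm0 : 0 < m := unr1_pos_of_coprime w h hm
  have hint : IsIntegral E ζ := unr1_isIntegral_of_isPrimitiveRoot hm0 hζ
  haveI : IsGalois E E⟮ζ⟯ := unr1_isGalois hm0 hζ
  haveI : Normal E Ω := unr1_normal
  obtain ⟨σ, hσ⟩ := unr1_exists_frobenius w hinv h hm hζ
  set φ : E⟮ζ⟯ ≃ₐ[E] E⟮ζ⟯ := σ.restrictNormal E⟮ζ⟯ with hφdef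
  have hφ : ((φ (AdjoinSimple.gen E ζ) : E⟮ζ⟯) : Ω) = ζ ^ resCard (resVal E w) := by
    have := AlgEquiv.restrictNormal_commutes σ E⟮ζ⟯ (AdjoinSimple.gen E ζ)
    rw [AdjoinSimple.algebraMap_gen] at this
    rw [← hσ, ← this]
    rfl
  have hφg : φ (AdjoinSimple.gen E ζ) = (AdjoinSimple.gen E ζ) ^ resCard (resVal E w) := by
    apply Subtype.ext
    rw [hφ]
    simp
  have hpow : ∀ j : ℕ, (φ ^ j) (AdjoinSimple.gen E ζ) =
      (AdjoinSimple.gen E ζ) ^ (resCard (resVal E w) ^ j) := by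
    intro j
    induction j with
    | zero => simp
    | succ j ih =>
      rw [pow_succ, AlgEquiv.mul_apply, hφg, map_pow, ih, ← pow_mul, pow_succ, mul_comm]
  refine ⟨φ, hφ, fun τ => ?_⟩
  obtain ⟨i, hi⟩ := unr1_frob w hinv h hm hζ (τ.liftNormal Ω)
  have hτ : τ (AdjoinSimple.gen E ζ) = (AdjoinSimple.gen E ζ) ^ (resCard (resVal E w) ^ i) := by
    apply Subtype.ext
    have := AlgEquiv.liftNormal_commutes τ Ω (AdjoinSimple.gen E ζ)
    rw [AdjoinSimple.algebraMap_gen] at this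
    have h2 : ((τ (AdjoinSimple.gen E ζ) : E⟮ζ⟯) : Ω) = τ.liftNormal Ω ζ := this.symm
    rw [h2, hi]
    simp
  have heq : τ = φ ^ i := by
    apply AlgEquiv.coe_toAlgHom_injective
    apply (IntermediateField.adjoin.powerBasis hint).algHom_ext
    rw [IntermediateField.adjoin.powerBasis_gen]
    change τ (AdjoinSimple.gen E ζ) = (φ ^ i) (AdjoinSimple.gen E ζ)
    rw [hτ, hpow]
  rw [heq]
  exact Subgroup.pow_mem _ (Subgroup.mem_zpowers φ) i

theorem unr1_two_le_resCard (w : Valuation Ω Γ₀) (h : HasFiniteResidue (resVal E w)) :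
    2 ≤ resCard (resVal E w) := by
  haveI := unr1_finite_residueField (resVal E w) h
  unfold resCard
  exact Finite.one_lt_card

/-- the order of `Q` modulo `Q ^ n - 1` is `n`. -/
theorem unr1_orderOf_pow_sub_one {Q n : ℕ} (hQ : 2 ≤ Q) (hn : 0 < n)
    (hcop : Nat.Coprime Q (Q ^ n - 1)) :
    orderOf (ZMod.unitOfCoprime Q hcop) = n := by
  have hpos : ∀ k, 1 ≤ Q ^ k := fun k => Nat.one_le_pow _ _ (by omega)
  rw [orderOf_eq_iff hn]
  constructor
  · apply Units.ext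
    rw [Units.val_pow_eq_pow_val, ZMod.coe_unitOfCoprime, Units.val_one, ← Nat.cast_pow]
    have h1 : (1 : ℕ) ≡ Q ^ n [MOD Q ^ n - 1] :=
      (Nat.modEq_iff_dvd' (hpos n)).mpr dvd_rfl
    have h2 := (ZMod.natCast_eq_natCast_iff _ _ _).mpr h1
    rw [Nat.cast_one] at h2
    exact h2.symm
  · intro k hk hk0 hcontra
    have h1 : ((Q ^ k : ℕ) : ZMod (Q ^ n - 1)) = ((1 : ℕ) : ZMod (Q ^ n - 1)) := by
      have := congrArg (fun x : (ZMod (Q ^ n - 1))ˣ => (x : ZMod (Q ^ n - 1))) hcontra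
      simp only [Units.val_pow_eq_pow_val, ZMod.coe_unitOfCoprime, Units.val_one] at this
      rw [Nat.cast_pow, Nat.cast_one]
      exact this
    rw [ZMod.natCast_eq_natCast_iff] at h1
    have h2 : Q ^ k < Q ^ n := Nat.pow_lt_pow_right (by omega) hk
    have h3 : 1 < Q ^ k := Nat.one_lt_pow hk0.ne' (by omega)
    have h4 := (Nat.modEq_iff_dvd' (hpos k)).mp h1.symm
    have h5 := Nat.le_of_dvd (by omega) h4
    omega

theorem unr1_exists_degree (w : Valuation Ω Γ₀) (hinv : IsInvVal E w)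
    (h : HasFiniteResidue (resVal E w)) (n : ℕ) (hn : 0 < n) :
    ∃ (m : ℕ) (ζ : Ω), Nat.Coprime m (resCard (resVal E w)) ∧ IsPrimitiveRoot ζ m ∧
      Module.finrank E E⟮ζ⟯ = n := by
  have hQ := unr1_two_le_resCard w h
  set Q := resCard (resVal E w) with hQdef
  have hpos : 1 ≤ Q ^ n := Nat.one_le_pow _ _ (by omega)
  have hQn : 2 ≤ Q ^ n := le_trans hQ (Nat.le_self_pow hn.ne' Q)
  have hcop : Nat.Coprime (Q ^ n - 1) Q := by
    have h1 : Nat.Coprime (Q ^ n - 1) (Q ^ n) := by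
      have : Q ^ n = (Q ^ n - 1) + 1 := by omega
      conv_rhs => rw [this]
      simp
    exact Nat.Coprime.coprime_dvd_right (dvd_pow_self Q hn.ne') h1
  haveI : CharZero Ω := charZero_of_injective_algebraMap (algebraMap E Ω).injective
  haveI : NeZero ((Q ^ n - 1 : ℕ) : Ω) := ⟨by
    rw [Nat.cast_ne_zero]
    omega⟩
  obtain ⟨ζ, hζ⟩ := HasEnoughRootsOfUnity.exists_primitiveRoot Ω (Q ^ n - 1)
  refine ⟨Q ^ n - 1, ζ, hcop, hζ, ?_⟩
  rw [unr1_finrank w hinv h hcop hζ]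
  exact unr1_orderOf_pow_sub_one hQ hn hcop.symm

end Fermat.Agent.F4.Loc
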