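import Fermat.Agent.F4.Loc.Setup

/-!
# F4 / Loc / UNR1 (helper90): residue fields of a valuation and of its restriction

`w` a valuation on `Ω`, `v = resVal E w` its restriction to `E`.
* `unr1_isUnit_iff`, `unr1_residue_eq_zero_iff` : units / maximal ideal of `w.valuationSubring`;
* `unr1_intHom` : the local ring hom `O_v → O_w`; `unr1_resMap` : `k_E → k_Ω`;
* `unr1_finite_residueField` : `HasFiniteResidue v → Finite k_E`;
* `unr1_val_natCast_eq_one` : `w m = 1` for `m` prime to `resCard v`;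
* `unr1_val_one_sub` / `unr1_val_sub_pow` : `w (ζ^i - ζ^j) = 1` for `ζ^i ≠ ζ^j`.
-/

set_option autoImplicit false
set_option linter.style.haveILetI false

open Polynomial

namespace Fermat.Agent.F4.Loc

variable {Ω : Type*} [Field Ω] {Γ₀ : Type*} [LinearOrderedCommGroupWithZero Γ₀]

section OneField

variable (w : Valuation Ω Γ₀)

theorem unr1_isUnit_iff (a : w.valuationSubring) : IsUnit a ↔ w (a : Ω) = 1 := by
  constructor
  · rintro ⟨⟨u, u', h1, h2⟩, rfl⟩
    have hu : w (u : Ω) ≤ 1 := (Valuation.mem_valuationSubring_iff w _).mp u.2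
    have hu' : w (u' : Ω) ≤ 1 := (Valuation.mem_valuationSubring_iff w _).mp u'.2
    have h3 : w (u : Ω) * w (u' : Ω) = 1 := by
      rw [← map_mul]
      have := congrArg (fun x : w.valuationSubring => (x : Ω)) h1
      simp only [MulMemClass.coe_mul, OneMemClass.coe_one] at this
      rw [this, map_one]
    refine le_antisymm hu ?_
    by_contra hlt
    rw [not_le] at hlt
    have : w (u : Ω) * w (u' : Ω) < 1 := by
      calc w (u : Ω) * w (u' : Ω) ≤ w (u : Ω) * 1 := mul_le_mul_right hu' _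
        _ = w (u : Ω) := mul_one _
        _ < 1 := hlt
    rw [h3] at this
    exact lt_irrefl _ this
  · intro h
    have ha0 : (a : Ω) ≠ 0 := by
      intro h0
      rw [h0, map_zero] at h
      exact zero_ne_one h
    have hinv : (a : Ω)⁻¹ ∈ w.valuationSubring := by
      rw [Valuation.mem_valuationSubring_iff, map_inv₀, h, inv_one]
    refine ⟨⟨a, ⟨(a : Ω)⁻¹, hinv⟩, ?_, ?_⟩, rfl⟩
    · ext
      simp [mul_inv_cancel₀ ha0]
    · ext
      simp [inv_mul_cancel₀ ha0]

theorem unr1_residue_eq_zero_iff (a : w.valuationSubring) :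
    IsLocalRing.residue w.valuationSubring a = 0 ↔ w (a : Ω) < 1 := by
  rw [IsLocalRing.residue_eq_zero_iff, IsLocalRing.mem_maximalIdeal, mem_nonunits_iff,
    unr1_isUnit_iff]
  have ha : w (a : Ω) ≤ 1 := (Valuation.mem_valuationSubring_iff w _).mp a.2
  exact ⟨fun h => lt_of_le_of_ne ha h, fun h => ne_of_lt h⟩

theorem unr1_residue_eq_iff (a b : w.valuationSubring) :
    IsLocalRing.residue w.valuationSubring a = IsLocalRing.residue w.valuationSubring b ↔
      w ((a : Ω) - b) < 1 := by
  rw [← sub_eq_zero, ← map_sub, unr1_residue_eq_zero_iff]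
  rfl

/-- finitely many residue classes: the residue field is finite. -/
theorem unr1_finite_residueField (h : HasFiniteResidue w) :
    Finite (IsLocalRing.ResidueField w.valuationSubring) := by
  classical
  obtain ⟨R, hR⟩ := h
  let f : {r : Ω // r ∈ R} → IsLocalRing.ResidueField w.valuationSubring := fun r =>
    if hr : w (r : Ω) ≤ 1 then IsLocalRing.residue w.valuationSubring
      ⟨r, (Valuation.mem_valuationSubring_iff w _).mpr hr⟩ else 0
  refine Finite.of_surjective f fun z => ?_
  obtain ⟨a, rfl⟩ := IsLocalRing.residue_surjective z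
  have ha : w (a : Ω) ≤ 1 := (Valuation.mem_valuationSubring_iff w _).mp a.2
  obtain ⟨r, hrR, hr⟩ := hR a ha
  have hr1 : w r ≤ 1 := by
    have h1 : r = (a : Ω) - ((a : Ω) - r) := by ring
    rw [h1]
    exact le_trans (Valuation.map_sub _ _ _) (max_le ha hr.le)
  refine ⟨⟨r, hrR⟩, ?_⟩
  simp only [f, dif_pos hr1]
  rw [unr1_residue_eq_iff]
  rw [← Valuation.map_neg]
  simpa using hr

end OneField

end Fermat.Agent.F4.Loc

namespace Fermat.Agent.F4.Loc

variable {Ω : Type*} [Field Ω] {Γ₀ : Type*} [LinearOrderedCommGroupWithZero Γ₀]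

section OneField'

variable (w : Valuation Ω Γ₀)

theorem unr1_val_natCast_le_one (m : ℕ) : w (m : Ω) ≤ 1 := by
  induction m with
  | zero => simp
  | succ n ih =>
    rw [Nat.cast_succ]
    exact le_trans (Valuation.map_add _ _ _) (max_le ih (by rw [map_one]))

/-- `w m = 1` for `m` prime to the cardinality of the (finite) residue field. -/
theorem unr1_val_natCast_eq_one (h : HasFiniteResidue w) {m : ℕ}
    (hm : Nat.Coprime m (resCard w)) : w (m : Ω) = 1 := by
  classical
  haveI := unr1_finite_residueField w h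
  letI := Fintype.ofFinite (IsLocalRing.ResidueField w.valuationSubring)
  have hQ : ((resCard w : ℕ) : IsLocalRing.ResidueField w.valuationSubring) = 0 := by
    unfold resCard
    rw [Nat.card_eq_fintype_card]
    exact Nat.cast_card_eq_zero _
  have hcop : IsCoprime (m : ℤ) (resCard w : ℤ) := Nat.isCoprime_iff_coprime.mpr hm
  obtain ⟨a, b, hab⟩ := hcop
  have h1 : ((a : IsLocalRing.ResidueField w.valuationSubring)) *
      ((m : ℕ) : IsLocalRing.ResidueField w.valuationSubring) = 1 := by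
    have := congrArg (fun z : ℤ => (z : IsLocalRing.ResidueField w.valuationSubring)) hab
    simp only [Int.cast_add, Int.cast_mul, Int.cast_natCast, Int.cast_one] at this
    rw [hQ, mul_zero, add_zero] at this
    exact this
  have hm0 : ((m : ℕ) : IsLocalRing.ResidueField w.valuationSubring) ≠ 0 := by
    intro h0
    rw [h0, mul_zero] at h1
    exact zero_ne_one h1
  have hle := unr1_val_natCast_le_one w m
  by_contra hne
  have hlt : w (m : Ω) < 1 := lt_of_le_of_ne hle hne
  have hmem : (m : Ω) ∈ w.valuationSubring := (Valuation.mem_valuationSubring_iff w _).mpr hle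
  have h2 := (unr1_residue_eq_zero_iff w ⟨(m : Ω), hmem⟩).mpr hlt
  apply hm0
  rw [← h2]
  have h3 : (⟨(m : Ω), hmem⟩ : w.valuationSubring) = ((m : ℕ) : w.valuationSubring) := by
    ext
    simp
  rw [h3, map_natCast]

/-- a root of unity has valuation `1`. -/
theorem unr1_val_eq_one_of_pow_eq_one {ζ : Ω} {m : ℕ} (hm : m ≠ 0) (hζ : ζ ^ m = 1) :
    w ζ = 1 := by
  have h1 : w ζ ^ m = 1 := by rw [← map_pow, hζ, map_one]
  rcases lt_trichotomy (w ζ) 1 with h | h | h
  · exact absurd h1 (ne_of_lt (pow_lt_one₀ zero_le h hm))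
  · exact h
  · exact absurd h1 (ne_of_gt (one_lt_pow₀ h hm))

end OneField'

section TwoFields

variable {E : Type*} [Field E] [Algebra E Ω] (w : Valuation Ω Γ₀)

/-- `w m = 1` for `m` prime to the residue cardinality of the base field. -/
theorem unr1_val_natCast_eq_one' (h : HasFiniteResidue (resVal E w)) {m : ℕ}
    (hm : Nat.Coprime m (resCard (resVal E w))) : w (m : Ω) = 1 := by
  have := unr1_val_natCast_eq_one (resVal E w) h hm
  rwa [resVal_apply, map_natCast] at this

theorem unr1_pos_of_coprime (h : HasFiniteResidue (resVal E w)) {m : ℕ}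
    (hm : Nat.Coprime m (resCard (resVal E w))) : 0 < m := by
  rcases Nat.eq_zero_or_pos m with h0 | h0
  · exfalso
    subst h0
    have := unr1_val_natCast_eq_one' w h hm
    simp at this
  · exact h0

/-- `w (1 - η) = 1` for a nontrivial `m`-th root of unity `η = ζ ^ e`. -/
theorem unr1_val_one_sub (h : HasFiniteResidue (resVal E w)) {m : ℕ}
    (hm : Nat.Coprime m (resCard (resVal E w))) {ζ : Ω} (hζ : IsPrimitiveRoot ζ m)
    (e : ℕ) (he : ζ ^ e ≠ 1) : w (1 - ζ ^ e) = 1 := by
  have hm0 : 0 < m := unr1_pos_of_coprime w h hm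
  obtain ⟨m', rfl⟩ : ∃ m', m = m' + 1 := ⟨m - 1, by omega⟩
  have hprod := hζ.prod_one_sub_pow_eq_order
  have hw1 : w (∏ k ∈ Finset.range m', (1 - ζ ^ (k + 1))) = 1 := by
    rw [hprod]
    have := unr1_val_natCast_eq_one' w h hm
    rwa [Nat.cast_succ] at this
  rw [map_prod] at hw1
  have hζ1 : w ζ = 1 := unr1_val_eq_one_of_pow_eq_one w (Nat.succ_ne_zero m') hζ.pow_eq_one
  have hle : ∀ k ∈ Finset.range m', w (1 - ζ ^ (k + 1)) ≤ 1 := fun k _ => by
    refine le_trans (Valuation.map_sub _ _ _) (max_le (by rw [map_one]) ?_)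
    rw [map_pow, hζ1, one_pow]
  have hall := (Finset.prod_eq_one_iff_of_le_one' hle).mp hw1
  -- reduce the exponent modulo `m`
  have hmod : ζ ^ e = ζ ^ (e % (m' + 1)) := by
    conv_lhs => rw [← Nat.mod_add_div e (m' + 1)]
    rw [pow_add, pow_mul, hζ.pow_eq_one, one_pow, mul_one]
  have hlt : e % (m' + 1) < m' + 1 := Nat.mod_lt _ (Nat.succ_pos _)
  have hne0 : e % (m' + 1) ≠ 0 := by
    intro h0
    rw [h0, pow_zero] at hmod
    exact he hmod
  obtain ⟨k, hk⟩ : ∃ k, e % (m' + 1) = k + 1 := ⟨e % (m' + 1) - 1, by omega⟩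
  rw [hmod, hk]
  exact hall k (Finset.mem_range.mpr (by omega))

/-- **reduction is injective on `μ_m`**: `w (ζ^i - ζ^j) = 1` for `ζ^i ≠ ζ^j`. -/
theorem unr1_val_sub_pow (h : HasFiniteResidue (resVal E w)) {m : ℕ}
    (hm : Nat.Coprime m (resCard (resVal E w))) {ζ : Ω} (hζ : IsPrimitiveRoot ζ m)
    (i j : ℕ) (hij : ζ ^ i ≠ ζ ^ j) : w (ζ ^ i - ζ ^ j) = 1 := by
  have hm0 : 0 < m := unr1_pos_of_coprime w h hm
  have hζ1 : w ζ = 1 := unr1_val_eq_one_of_pow_eq_one w hm0.ne' hζ.pow_eq_one
  have key : ∀ a b : ℕ, b ≤ a → ζ ^ a ≠ ζ ^ b → w (ζ ^ a - ζ ^ b) = 1 := by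
    intro a b hba hab
    have h1 : ζ ^ a - ζ ^ b = -(ζ ^ b * (1 - ζ ^ (a - b))) := by
      have : ζ ^ a = ζ ^ b * ζ ^ (a - b) := by rw [← pow_add, Nat.add_sub_cancel' hba]
      rw [this]
      ring
    have h2 : ζ ^ (a - b) ≠ 1 := by
      intro h1'
      apply hab
      have : ζ ^ a = ζ ^ b * ζ ^ (a - b) := by rw [← pow_add, Nat.add_sub_cancel' hba]
      rw [this, h1', mul_one]
    rw [h1, Valuation.map_neg, map_mul, map_pow, hζ1, one_pow, one_mul]
    exact unr1_val_one_sub w h hm hζ _ h2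
  rcases le_total j i with hji | hij'
  · exact key i j hji hij
  · rw [← Valuation.map_neg, neg_sub]
    exact key j i hij' (Ne.symm hij)

end TwoFields

end Fermat.Agent.F4.Loc
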