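import Fermat.Agent.F4.Loc.Unr1.Residue

/-!
# F4 / Loc / UNR1 (helper90): the lower bound `orderOf (Q mod m) ≤ [E(ζ) : E]`

The minimal polynomial of `ζ` over `E` has coefficients in `O_v`; its reduction vanishes at the
reduction `ζ̄`, a primitive `m`-th root of unity of `k_Ω`; the minimal polynomial of `ζ̄` over the
finite field `k_E` has degree `orderOf (Q mod m)`
(`Polynomial.natDegree_of_dvd_cyclotomic_of_irreducible`).
-/

set_option autoImplicit false
set_option linter.style.haveILetI false

open Polynomial

namespace Fermat.Agent.F4.Loc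

variable {E Ω : Type*} [Field E] [Field Ω] [Algebra E Ω]
  {Γ₀ : Type*} [LinearOrderedCommGroupWithZero Γ₀] (w : Valuation Ω Γ₀)

/-- the order of `a mod m` does not depend on the way `a` is written. -/
theorem unr1_orderOf_congr {m a b : ℕ} (hab : a = b) (ha : Nat.Coprime a m)
    (hb : Nat.Coprime b m) :
    orderOf (ZMod.unitOfCoprime a ha) = orderOf (ZMod.unitOfCoprime b hb) := by
  subst hab
  rfl

/-- the degree of the minimal polynomial over `k_E` of a primitive `m`-th root of unity. -/
theorem unr1_natDegree_minpoly_residue {k L : Type*} [Field k] [Field L] [Algebra k L]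
    [Finite k] {m : ℕ} (hm : Nat.Coprime m (Nat.card k)) {z : L} (hz : IsPrimitiveRoot z m) :
    (minpoly k z).natDegree = orderOf (ZMod.unitOfCoprime (Nat.card k) hm.symm) := by
  classical
  letI := Fintype.ofFinite k
  obtain ⟨p, _, n, hp, hcard⟩ := FiniteField.card' k
  haveI : Fact p.Prime := ⟨hp⟩
  have hQ : Nat.card k = p ^ (n : ℕ) := by rw [Nat.card_eq_fintype_card, hcard]
  have hm0 : 0 < m := by
    rcases Nat.eq_zero_or_pos m with h0 | h0
    · exfalso
      subst h0
      rw [Nat.coprime_zero_left, hQ] at hm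
      have h2 : 2 ≤ p := hp.two_le
      have : 2 ≤ p ^ (n : ℕ) := le_trans h2 (Nat.le_self_pow n.pos.ne' p)
      omega
    · exact h0
  have hpm : p.Coprime m := by
    rw [hQ] at hm
    exact (Nat.coprime_pow_left_iff n.pos p m).mp hm.symm
  have hint : IsIntegral k z := by
    refine ⟨X ^ m - 1, monic_X_pow_sub_C 1 hm0.ne', ?_⟩
    simp [hz.pow_eq_one]
  have hroot : Polynomial.aeval z (cyclotomic m k) = 0 := by
    rw [Polynomial.aeval_def, Polynomial.eval₂_eq_eval_map, Polynomial.map_cyclotomic]
    exact hz.isRoot_cyclotomic hm0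
  have hdvd : minpoly k z ∣ cyclotomic m k := minpoly.dvd k z hroot
  rw [natDegree_of_dvd_cyclotomic_of_irreducible hcard hpm hdvd (minpoly.irreducible hint)]
  exact unr1_orderOf_congr hQ.symm _ _

/-- the minimal polynomial of an element integral over `O_v`, reduced, vanishes at the reduction. -/
theorem unr1_natDegree_minpoly_residue_le {ζ : Ω} (hζ1 : w ζ ≤ 1)
    (hint : ∃ P : (↥(resVal E w).valuationSubring)[X], P.Monic ∧
      Polynomial.eval₂ ((algebraMap E Ω).comp (resVal E w).valuationSubring.subtype) ζ P = 0 ∧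
      P.map (resVal E w).valuationSubring.subtype = minpoly E ζ) :
    letI : Algebra (IsLocalRing.ResidueField (resVal E w).valuationSubring)
      (IsLocalRing.ResidueField w.valuationSubring) := (unr1_resMap E w).toAlgebra
    (minpoly (IsLocalRing.ResidueField (resVal E w).valuationSubring)
      (unr1_red w ζ hζ1)).natDegree ≤ (minpoly E ζ).natDegree := by
  letI : Algebra (IsLocalRing.ResidueField (resVal E w).valuationSubring)
    (IsLocalRing.ResidueField w.valuationSubring) := (unr1_resMap E w).toAlgebra
  obtain ⟨P, hPm, hP0, hPmap⟩ := hint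
  have h1 : Polynomial.eval₂ (unr1_intHom E w) (unr1_mk w ζ hζ1) P = 0 := by
    apply Subtype.ext
    have := Polynomial.hom_eval₂ P (unr1_intHom E w) w.valuationSubring.subtype (unr1_mk w ζ hζ1)
    have hcomp : (w.valuationSubring.subtype).comp (unr1_intHom E w) =
        (algebraMap E Ω).comp (resVal E w).valuationSubring.subtype := by
      ext a
      rfl
    rw [hcomp] at this
    change w.valuationSubring.subtype _ = _
    rw [this]
    exact hP0
  have h2 := Polynomial.hom_eval₂ P (unr1_intHom E w) (IsLocalRing.residue w.valuationSubring)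
    (unr1_mk w ζ hζ1)
  rw [h1, map_zero] at h2
  have hcomp2 : (IsLocalRing.residue w.valuationSubring).comp (unr1_intHom E w) =
      (unr1_resMap E w).comp (IsLocalRing.residue (resVal E w).valuationSubring) := by
    ext a
    exact (unr1_resMap_residue E w a).symm
  rw [hcomp2, ← Polynomial.eval₂_map] at h2
  have h3 : Polynomial.aeval (unr1_red w ζ hζ1)
      (P.map (IsLocalRing.residue (resVal E w).valuationSubring)) = 0 := by
    rw [Polynomial.aeval_def]
    exact h2.symm
  have hPbar : (P.map (IsLocalRing.residue (resVal E w).valuationSubring)).Monic := hPm.map _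
  have hdvd := minpoly.dvd _ _ h3
  calc (minpoly (IsLocalRing.ResidueField (resVal E w).valuationSubring)
        (unr1_red w ζ hζ1)).natDegree
      ≤ (P.map (IsLocalRing.residue (resVal E w).valuationSubring)).natDegree :=
        Polynomial.natDegree_le_of_dvd hdvd hPbar.ne_zero
    _ = P.natDegree := hPm.natDegree_map _
    _ = (P.map (resVal E w).valuationSubring.subtype).natDegree := (hPm.natDegree_map _).symm
    _ = (minpoly E ζ).natDegree := by rw [hPmap]

end Fermat.Agent.F4.Loc

namespace Fermat.Agent.F4.Loc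

variable {E Ω : Type*} [Field E] [Field Ω] [Algebra E Ω]
  {Γ₀ : Type*} [LinearOrderedCommGroupWithZero Γ₀] (w : Valuation Ω Γ₀)

/-- the minimal polynomial over `E` of a root of unity has coefficients in `O_v`. -/
theorem unr1_exists_minpoly_lift {m : ℕ} (hm : 0 < m) {ζ : Ω} (hζ : ζ ^ m = 1) :
    ∃ P : (↥(resVal E w).valuationSubring)[X], P.Monic ∧
      Polynomial.eval₂ ((algebraMap E Ω).comp (resVal E w).valuationSubring.subtype) ζ P = 0 ∧
      P.map (resVal E w).valuationSubring.subtype = minpoly E ζ := by
  letI : Algebra ↥(resVal E w).valuationSubring Ω :=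
    ((algebraMap E Ω).comp (resVal E w).valuationSubring.subtype).toAlgebra
  haveI : IsScalarTower ↥(resVal E w).valuationSubring E Ω :=
    IsScalarTower.of_algebraMap_eq (fun _ => rfl)
  have hint : IsIntegral ↥(resVal E w).valuationSubring ζ := by
    refine ⟨X ^ m - 1, monic_X_pow_sub_C 1 hm.ne', ?_⟩
    simp [hζ]
  refine ⟨minpoly _ ζ, minpoly.monic hint, ?_, ?_⟩
  · exact minpoly.aeval _ ζ
  · exact (minpoly.isIntegrallyClosed_eq_field_fractions' E hint).symm

/-- **lower bound**: `orderOf (Q mod m) ≤ deg (minpoly E ζ)`. -/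
theorem unr1_orderOf_le_natDegree (h : HasFiniteResidue (resVal E w)) {m : ℕ}
    (hm : Nat.Coprime m (resCard (resVal E w))) {ζ : Ω} (hζ : IsPrimitiveRoot ζ m) :
    orderOf (ZMod.unitOfCoprime (resCard (resVal E w)) hm.symm) ≤ (minpoly E ζ).natDegree := by
  letI : Algebra (IsLocalRing.ResidueField (resVal E w).valuationSubring)
    (IsLocalRing.ResidueField w.valuationSubring) := (unr1_resMap E w).toAlgebra
  haveI := unr1_finite_residueField (resVal E w) h
  have hm0 : 0 < m := unr1_pos_of_coprime w h hm
  have hζ1 : w ζ ≤ 1 := (unr1_val_eq_one_of_pow_eq_one w hm0.ne' hζ.pow_eq_one).le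
  have hprim := unr1_isPrimitiveRoot_residue w h hm hζ hζ1
  have h1 := unr1_natDegree_minpoly_residue (k := IsLocalRing.ResidueField
    (resVal E w).valuationSubring) (m := m) hm hprim
  have h2 := unr1_natDegree_minpoly_residue_le (E := E) w hζ1
    (unr1_exists_minpoly_lift (E := E) w hm0 hζ.pow_eq_one)
  rw [h1] at h2
  exact h2

end Fermat.Agent.F4.Loc
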