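import Fermat.Agent.F4.Loc.Unr1.Degree

/-!
# F4 / Loc / UNR1 (helper90): automorphisms act on `μ_m` through powers of Frobenius

* `unr1_root_minpoly_eq_frob_pow` : over a finite field `k`, a root `z ^ a` of the minimal
  polynomial of `z` is `z ^ (#k ^ i)` (Galois group of a finite field = powers of Frobenius);
* `unr1_autRes` : the automorphism of `k_Ω` induced by a `w`-invariant automorphism of `Ω`;
* `unr1_frob` : `σ ζ = ζ ^ (Q ^ i)`.
-/

set_option autoImplicit false
set_option linter.style.haveILetI false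

open Polynomial IntermediateField

namespace Fermat.Agent.F4.Loc

/-- over a finite field, the conjugates of `z` among its powers are the `z ^ (q ^ i)`. -/
theorem unr1_root_minpoly_eq_frob_pow {k L : Type*} [Field k] [Field L] [Algebra k L] [Finite k]
    {z : L} (hz : IsIntegral k z) (a : ℕ)
    (hroot : Polynomial.aeval (z ^ a) (minpoly k z) = 0) :
    ∃ i : ℕ, z ^ a = z ^ (Nat.card k ^ i) := by
  classical
  letI := Fintype.ofFinite k
  haveI : FiniteDimensional k k⟮z⟯ := IntermediateField.adjoin.finiteDimensional hz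
  haveI : Finite k⟮z⟯ := Module.finite_of_finite k
  set g : k⟮z⟯ := AdjoinSimple.gen k z with hg
  have hgz : (g : L) = z := AdjoinSimple.coe_gen k z
  have hmin : minpoly k g = minpoly k z := IntermediateField.minpoly_gen k z
  have hroot' : Polynomial.aeval (g ^ a) (minpoly k g) = 0 := by
    apply (algebraMap k⟮z⟯ L).injective
    rw [map_zero, ← Polynomial.aeval_algebraMap_apply, map_pow, hmin]
    exact hroot
  have halg : IsAlgebraic k g := (Algebra.IsAlgebraic.isAlgebraic g)
  obtain ⟨τ, hτ⟩ := minpoly.exists_algEquiv_of_root' halg hroot'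
  obtain ⟨n, hn⟩ := (FiniteField.bijective_frobeniusAlgEquivOfAlgebraic_pow k k⟮z⟯).2 τ
  refine ⟨n.1, ?_⟩
  have h1 : τ g = g ^ (Fintype.card k ^ n.1) := by
    rw [← hn]
    simp only [AlgEquiv.coe_pow]
    rw [FiniteField.coe_frobeniusAlgEquivOfAlgebraic_iterate]
  rw [hτ] at h1
  have h2 := congrArg (fun x : k⟮z⟯ => (x : L)) h1
  simp only [SubmonoidClass.coe_pow] at h2
  rw [hgz] at h2
  rw [h2, Nat.card_eq_fintype_card]

variable {E Ω : Type*} [Field E] [Field Ω] [Algebra E Ω]
  {Γ₀ : Type*} [LinearOrderedCommGroupWithZero Γ₀] (w : Valuation Ω Γ₀)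

/-- a `w`-invariant automorphism on the valuation ring. -/
def unr1_autHom (σ : Ω ≃ₐ[E] Ω) (hσ : ∀ x, w (σ x) = w x) :
    w.valuationSubring →+* w.valuationSubring where
  toFun a := ⟨σ a, (Valuation.mem_valuationSubring_iff w _).mpr
    (by rw [hσ]; exact (Valuation.mem_valuationSubring_iff w _).mp a.2)⟩
  map_one' := by ext; simp
  map_mul' a b := by ext; simp
  map_zero' := by ext; simp
  map_add' a b := by ext; simp

instance unr1_autHom_isLocalHom (σ : Ω ≃ₐ[E] Ω) (hσ : ∀ x, w (σ x) = w x) :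
    IsLocalHom (unr1_autHom w σ hσ) where
  map_nonunit a ha := by
    rw [unr1_isUnit_iff] at ha ⊢
    have : w ((unr1_autHom w σ hσ a : w.valuationSubring) : Ω) = w (a : Ω) := hσ _
    rwa [this] at ha

/-- the induced automorphism of the residue field. -/
noncomputable def unr1_autRes (σ : Ω ≃ₐ[E] Ω) (hσ : ∀ x, w (σ x) = w x) :
    IsLocalRing.ResidueField w.valuationSubring →+* IsLocalRing.ResidueField w.valuationSubring :=
  IsLocalRing.ResidueField.map (unr1_autHom w σ hσ)

theorem unr1_autRes_red (σ : Ω ≃ₐ[E] Ω) (hσ : ∀ x, w (σ x) = w x) {x : Ω} (hx : w x ≤ 1) :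
    unr1_autRes w σ hσ (unr1_red w x hx) = unr1_red w (σ x) (by rw [hσ]; exact hx) :=
  IsLocalRing.ResidueField.map_residue _ _

theorem unr1_autRes_resMap (σ : Ω ≃ₐ[E] Ω) (hσ : ∀ x, w (σ x) = w x)
    (c : IsLocalRing.ResidueField (resVal E w).valuationSubring) :
    unr1_autRes w σ hσ (unr1_resMap E w c) = unr1_resMap E w c := by
  obtain ⟨a, rfl⟩ := IsLocalRing.residue_surjective c
  rw [unr1_resMap_residue]
  unfold unr1_autRes
  rw [IsLocalRing.ResidueField.map_residue]
  congr 1
  ext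
  exact σ.commutes _

/-- **every automorphism acts on `μ_m` through a power of the Frobenius.** -/
theorem unr1_frob (hinv : IsInvVal E w) (h : HasFiniteResidue (resVal E w)) {m : ℕ}
    (hm : Nat.Coprime m (resCard (resVal E w))) {ζ : Ω} (hζ : IsPrimitiveRoot ζ m)
    (σ : Ω ≃ₐ[E] Ω) : ∃ i : ℕ, σ ζ = ζ ^ (resCard (resVal E w) ^ i) := by
  letI : Algebra (IsLocalRing.ResidueField (resVal E w).valuationSubring)
    (IsLocalRing.ResidueField w.valuationSubring) := (unr1_resMap E w).toAlgebra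
  haveI := unr1_finite_residueField (resVal E w) h
  have hm0 : 0 < m := unr1_pos_of_coprime w h hm
  have hζ1 : w ζ ≤ 1 := (unr1_val_eq_one_of_pow_eq_one w hm0.ne' hζ.pow_eq_one).le
  have hσ : ∀ x, w (σ x) = w x := hinv σ
  -- `σ ζ = ζ ^ a`
  have hσζ : (σ ζ) ^ m = 1 := by rw [← map_pow, hζ.pow_eq_one, map_one]
  haveI : NeZero m := ⟨hm0.ne'⟩
  obtain ⟨a, -, ha⟩ := hζ.eq_pow_of_pow_eq_one hσζ
  -- the induced `k_E`-algebra endomorphism of `k_Ω`
  let σA : IsLocalRing.ResidueField w.valuationSubring →ₐ[IsLocalRing.ResidueField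
      (resVal E w).valuationSubring] IsLocalRing.ResidueField w.valuationSubring :=
    { unr1_autRes w σ hσ with
      commutes' := fun c => unr1_autRes_resMap w σ hσ c }
  have hσA : σA (unr1_red w ζ hζ1) = unr1_red w ζ hζ1 ^ a := by
    change unr1_autRes w σ hσ (unr1_red w ζ hζ1) = _
    rw [unr1_autRes_red, ← unr1_red_pow w hζ1 a (unr1_val_pow_le_one w hζ1 a)]
    congr 1
    exact ha.symm
  have hprim := unr1_isPrimitiveRoot_residue w h hm hζ hζ1
  have hint : IsIntegral (IsLocalRing.ResidueField (resVal E w).valuationSubring)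
      (unr1_red w ζ hζ1) := by
    refine ⟨X ^ m - 1, monic_X_pow_sub_C 1 hm0.ne', ?_⟩
    simp [hprim.pow_eq_one]
  have hroot : Polynomial.aeval (unr1_red w ζ hζ1 ^ a)
      (minpoly (IsLocalRing.ResidueField (resVal E w).valuationSubring)
        (unr1_red w ζ hζ1)) = 0 := by
    rw [← hσA, Polynomial.aeval_algHom_apply, minpoly.aeval, map_zero]
  obtain ⟨i, hi⟩ := unr1_root_minpoly_eq_frob_pow hint a hroot
  refine ⟨i, ?_⟩
  rw [← ha]
  by_contra hne
  have h1 := unr1_val_sub_pow w h hm hζ a (resCard (resVal E w) ^ i) hne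
  have h2 : unr1_red w (ζ ^ a) (unr1_val_pow_le_one w hζ1 a) =
      unr1_red w (ζ ^ (resCard (resVal E w) ^ i)) (unr1_val_pow_le_one w hζ1 _) := by
    rw [unr1_red_pow w hζ1, unr1_red_pow w hζ1]
    exact hi
  rw [unr1_red_eq_iff, h1] at h2
  exact lt_irrefl _ h2

end Fermat.Agent.F4.Loc
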