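import Fermat.Agent.F4.Loc.Unr1.Frob

/-!
# F4 / Loc / UNR1 (helper90): degree and Galois group of `E(ζ_m) / E`

* `unr1_natDegree_le_orderOf` : the conjugates of `ζ` are among the `ζ ^ (Q ^ i)`, `i < n`;
* `unr1_finrank` : `[E(ζ) : E] = n = orderOf (Q mod m)`;
* `unr1_exists_frobenius` : `ζ ^ Q` is a conjugate of `ζ`;
* `unr1_cyclic`, `unr1_exists_degree`.
-/

set_option autoImplicit false
set_option linter.style.haveILetI false
set_option linter.unusedSectionVars false

open Polynomial IntermediateField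

namespace Fermat.Agent.F4.Loc

variable {E Ω : Type*} [Field E] [Field Ω] [Algebra E Ω] [CharZero E] [IsAlgClosed Ω]
  [Algebra.IsAlgebraic E Ω] {Γ₀ : Type*} [LinearOrderedCommGroupWithZero Γ₀]

/-- `ζ ^ (Q ^ i)` only depends on `i` modulo the order of `Q mod m`. -/
theorem unr1_pow_pow_mod {m Q : ℕ} (hm0 : 0 < m) (hQm : Nat.Coprime Q m) {ζ : Ω}
    (hζ : IsPrimitiveRoot ζ m) (i : ℕ) :
    ζ ^ (Q ^ i) = ζ ^ (Q ^ (i % orderOf (ZMod.unitOfCoprime Q hQm))) := by
  set u := ZMod.unitOfCoprime Q hQm with hu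
  have h1 : u ^ i = u ^ (i % orderOf u) := (pow_mod_orderOf u i).symm
  have h2 : ((Q ^ i : ℕ) : ZMod m) = ((Q ^ (i % orderOf u) : ℕ) : ZMod m) := by
    have h1' : ((u ^ i : (ZMod m)ˣ) : ZMod m) = ((u ^ (i % orderOf u) : (ZMod m)ˣ) : ZMod m) := by
      rw [h1]
    rw [Units.val_pow_eq_pow_val, Units.val_pow_eq_pow_val, hu, ZMod.coe_unitOfCoprime] at h1'
    rw [Nat.cast_pow, Nat.cast_pow]
    exact h1'
  have h3 : Q ^ i ≡ Q ^ (i % orderOf u) [MOD m] := (ZMod.natCast_eq_natCast_iff _ _ _).mp h2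
  have h4 : orderOf ζ = m := hζ.eq_orderOf.symm
  have h5 : Q ^ i ≡ Q ^ (i % orderOf u) [MOD orderOf ζ] := by rw [h4]; exact h3
  have hfin : IsOfFinOrder ζ := isOfFinOrder_iff_pow_eq_one.mpr ⟨m, hm0, hζ.pow_eq_one⟩
  exact hfin.pow_eq_pow_iff_modEq.mpr h5

/-- the set of candidates for the conjugates of `ζ`. -/
noncomputable def unr1_orbit (Q n : ℕ) (ζ : Ω) : Finset Ω :=
  open Classical in (Finset.range n).image fun i => ζ ^ (Q ^ i)

theorem unr1_card_orbit_le (Q n : ℕ) (ζ : Ω) : (unr1_orbit Q n ζ).card ≤ n := by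
  classical
  unfold unr1_orbit
  exact le_trans Finset.card_image_le (by rw [Finset.card_range])

theorem unr1_isIntegral_of_isPrimitiveRoot {m : ℕ} (hm0 : 0 < m) {ζ : Ω}
    (hζ : IsPrimitiveRoot ζ m) : IsIntegral E ζ := by
  refine ⟨X ^ m - 1, monic_X_pow_sub_C 1 hm0.ne', ?_⟩
  simp [hζ.pow_eq_one]

theorem unr1_normal : Normal E Ω :=
  haveI : IsAlgClosure E Ω := ⟨inferInstance, inferInstance⟩
  IsAlgClosure.normal E Ω

/-- the roots of the minimal polynomial of `ζ` lie in the Frobenius orbit. -/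
theorem unr1_aroots_subset (w : Valuation Ω Γ₀) (hinv : IsInvVal E w)
    (h : HasFiniteResidue (resVal E w)) {m : ℕ}
    (hm : Nat.Coprime m (resCard (resVal E w))) {ζ : Ω} (hζ : IsPrimitiveRoot ζ m) :
    open Classical in ((minpoly E ζ).aroots Ω).toFinset ⊆
      unr1_orbit (resCard (resVal E w))
        (orderOf (ZMod.unitOfCoprime (resCard (resVal E w)) hm.symm)) ζ := by
  classical
  have hm0 : 0 < m := unr1_pos_of_coprime w h hm
  have hint : IsIntegral E ζ := unr1_isIntegral_of_isPrimitiveRoot hm0 hζ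
  haveI : Normal E Ω := unr1_normal
  have hord : 0 < orderOf (ZMod.unitOfCoprime (resCard (resVal E w)) hm.symm) :=
    orderOf_pos _
  intro r hr
  rw [Multiset.mem_toFinset, Polynomial.mem_aroots] at hr
  obtain ⟨σ, hσ⟩ := minpoly.exists_algEquiv_of_root' hint.isAlgebraic hr.2
  obtain ⟨i, hi⟩ := unr1_frob w hinv h hm hζ σ
  unfold unr1_orbit
  rw [Finset.mem_image]
  refine ⟨i % orderOf (ZMod.unitOfCoprime (resCard (resVal E w)) hm.symm),
    Finset.mem_range.mpr (Nat.mod_lt _ hord), ?_⟩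
  rw [← unr1_pow_pow_mod hm0 hm.symm hζ i, ← hi, hσ]

theorem unr1_card_aroots {ζ : Ω} (hint : IsIntegral E ζ) :
    open Classical in ((minpoly E ζ).aroots Ω).toFinset.card = (minpoly E ζ).natDegree := by
  classical
  have hsep : (minpoly E ζ).Separable := (minpoly.irreducible hint).separable
  have hnd : ((minpoly E ζ).aroots Ω).Nodup := Polynomial.nodup_roots hsep.map
  rw [Multiset.toFinset_card_of_nodup hnd]
  exact IsAlgClosed.card_roots_map_eq_natDegree_of_injective _ (algebraMap E Ω).injective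

/-- **the degree**: `[E(ζ) : E] = orderOf (Q mod m)`. -/
theorem unr1_natDegree_eq (w : Valuation Ω Γ₀) (hinv : IsInvVal E w)
    (h : HasFiniteResidue (resVal E w)) {m : ℕ}
    (hm : Nat.Coprime m (resCard (resVal E w))) {ζ : Ω} (hζ : IsPrimitiveRoot ζ m) :
    (minpoly E ζ).natDegree = orderOf (ZMod.unitOfCoprime (resCard (resVal E w)) hm.symm) := by
  classical
  have hm0 : 0 < m := unr1_pos_of_coprime w h hm
  have hint : IsIntegral E ζ := unr1_isIntegral_of_isPrimitiveRoot hm0 hζ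
  refine le_antisymm ?_ (unr1_orderOf_le_natDegree w h hm hζ)
  rw [← unr1_card_aroots hint]
  exact le_trans (Finset.card_le_card (unr1_aroots_subset w hinv h hm hζ))
    (unr1_card_orbit_le _ _ _)

theorem unr1_finrank (w : Valuation Ω Γ₀) (hinv : IsInvVal E w)
    (h : HasFiniteResidue (resVal E w)) {m : ℕ}
    (hm : Nat.Coprime m (resCard (resVal E w))) {ζ : Ω} (hζ : IsPrimitiveRoot ζ m) :
    Module.finrank E E⟮ζ⟯ = orderOf (ZMod.unitOfCoprime (resCard (resVal E w)) hm.symm) := by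
  have hm0 : 0 < m := unr1_pos_of_coprime w h hm
  have hint : IsIntegral E ζ := unr1_isIntegral_of_isPrimitiveRoot hm0 hζ
  rw [IntermediateField.adjoin.finrank hint]
  exact unr1_natDegree_eq w hinv h hm hζ

/-- **the Frobenius exists**: `ζ ^ Q` is a conjugate of `ζ`. -/
theorem unr1_exists_frobenius (w : Valuation Ω Γ₀) (hinv : IsInvVal E w)
    (h : HasFiniteResidue (resVal E w)) {m : ℕ}
    (hm : Nat.Coprime m (resCard (resVal E w))) {ζ : Ω} (hζ : IsPrimitiveRoot ζ m) :
    ∃ σ : Ω ≃ₐ[E] Ω, σ ζ = ζ ^ resCard (resVal E w) := by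
  classical
  have hm0 : 0 < m := unr1_pos_of_coprime w h hm
  have hint : IsIntegral E ζ := unr1_isIntegral_of_isPrimitiveRoot hm0 hζ
  haveI : Normal E Ω := unr1_normal
  set n := orderOf (ZMod.unitOfCoprime (resCard (resVal E w)) hm.symm) with hn
  have hord : 0 < n := orderOf_pos _
  have hsub := unr1_aroots_subset w hinv h hm hζ
  have hcard : (unr1_orbit (resCard (resVal E w)) n ζ).card ≤
      ((minpoly E ζ).aroots Ω).toFinset.card := by
    rw [unr1_card_aroots hint, unr1_natDegree_eq w hinv h hm hζ]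
    exact unr1_card_orbit_le _ _ _
  have heq := Finset.eq_of_subset_of_card_le hsub hcard
  have hmem : ζ ^ resCard (resVal E w) ∈ ((minpoly E ζ).aroots Ω).toFinset := by
    rw [heq]
    unfold unr1_orbit
    rw [Finset.mem_image]
    refine ⟨1 % n, Finset.mem_range.mpr (Nat.mod_lt _ hord), ?_⟩
    rw [← unr1_pow_pow_mod hm0 hm.symm hζ 1, pow_one]
  rw [Multiset.mem_toFinset, Polynomial.mem_aroots] at hmem
  exact minpoly.exists_algEquiv_of_root' hint.isAlgebraic hmem.2

end Fermat.Agent.F4.Loc
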