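import Fermat.Agent.F4.Loc.Unr1.Basic

/-!
# F4 / Loc / UNR1 (helper90): the residue field extension `k_E → k_Ω`

* `unr1_intHom E w : O_v →+* O_w`, local; `unr1_resMap E w : k_E →+* k_Ω`;
* `unr1_autHom w σ : O_w →+* O_w` for a `w`-invariant automorphism, `unr1_autRes`;
* `unr1_isPrimitiveRoot_residue` : the reduction of a primitive `m`-th root of unity
  (`m` prime to the residue cardinality) is a primitive `m`-th root of unity.
-/

set_option autoImplicit false
set_option linter.style.haveILetI false

open Polynomial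

namespace Fermat.Agent.F4.Loc

variable (E : Type*) {Ω : Type*} [Field E] [Field Ω] [Algebra E Ω]
  {Γ₀ : Type*} [LinearOrderedCommGroupWithZero Γ₀] (w : Valuation Ω Γ₀)

/-- the inclusion of valuation rings `O_v → O_w`. -/
def unr1_intHom : (resVal E w).valuationSubring →+* w.valuationSubring where
  toFun a := ⟨algebraMap E Ω a, (Valuation.mem_valuationSubring_iff w _).mpr
    ((Valuation.mem_valuationSubring_iff (resVal E w) _).mp a.2)⟩
  map_one' := by ext; simp
  map_mul' a b := by ext; simp
  map_zero' := by ext; simp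
  map_add' a b := by ext; simp

@[simp] theorem unr1_intHom_coe (a : (resVal E w).valuationSubring) :
    ((unr1_intHom E w a : w.valuationSubring) : Ω) = algebraMap E Ω (a : E) := rfl

instance unr1_intHom_isLocalHom : IsLocalHom (unr1_intHom E w) where
  map_nonunit a ha := by
    rw [unr1_isUnit_iff] at ha ⊢
    exact ha

/-- the residue field extension `k_E → k_Ω`. -/
noncomputable def unr1_resMap :
    IsLocalRing.ResidueField (resVal E w).valuationSubring →+*
      IsLocalRing.ResidueField w.valuationSubring :=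
  IsLocalRing.ResidueField.map (unr1_intHom E w)

theorem unr1_resMap_residue (a : (resVal E w).valuationSubring) :
    unr1_resMap E w (IsLocalRing.residue _ a) =
      IsLocalRing.residue _ (unr1_intHom E w a) :=
  IsLocalRing.ResidueField.map_residue _ a

variable {E}

/-- an element of valuation `≤ 1` as an element of the valuation ring. -/
def unr1_mk (x : Ω) (hx : w x ≤ 1) : w.valuationSubring :=
  ⟨x, (Valuation.mem_valuationSubring_iff w _).mpr hx⟩

@[simp] theorem unr1_mk_coe (x : Ω) (hx : w x ≤ 1) : ((unr1_mk w x hx : w.valuationSubring) : Ω) = x :=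
  rfl

/-- the reduction of `x` (`w x ≤ 1`). -/
noncomputable def unr1_red (x : Ω) (hx : w x ≤ 1) : IsLocalRing.ResidueField w.valuationSubring :=
  IsLocalRing.residue _ (unr1_mk w x hx)

theorem unr1_red_eq_iff {x y : Ω} (hx : w x ≤ 1) (hy : w y ≤ 1) :
    unr1_red w x hx = unr1_red w y hy ↔ w (x - y) < 1 :=
  unr1_residue_eq_iff w _ _

theorem unr1_red_pow {x : Ω} (hx : w x ≤ 1) (n : ℕ) (hxn : w (x ^ n) ≤ 1) :
    unr1_red w (x ^ n) hxn = unr1_red w x hx ^ n := by
  unfold unr1_red
  rw [← map_pow]
  congr 1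

theorem unr1_red_one (h1 : w (1 : Ω) ≤ 1) : unr1_red w 1 h1 = 1 := by
  unfold unr1_red
  rw [← map_one (IsLocalRing.residue _)]
  congr 1

theorem unr1_val_pow_le_one {x : Ω} (hx : w x ≤ 1) (n : ℕ) : w (x ^ n) ≤ 1 := by
  rw [map_pow]
  exact pow_le_one₀ zero_le hx

/-- the reduction of a primitive `m`-th root of unity is a primitive `m`-th root of unity. -/
theorem unr1_isPrimitiveRoot_residue (h : HasFiniteResidue (resVal E w)) {m : ℕ}
    (hm : Nat.Coprime m (resCard (resVal E w))) {ζ : Ω} (hζ : IsPrimitiveRoot ζ m)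
    (hζ1 : w ζ ≤ 1) : IsPrimitiveRoot (unr1_red w ζ hζ1) m := by
  have hm0 : 0 < m := unr1_pos_of_coprime w h hm
  refine IsPrimitiveRoot.mk_of_lt _ hm0 ?_ ?_
  · rw [← unr1_red_pow w hζ1 m (unr1_val_pow_le_one w hζ1 m)]
    rw [← unr1_red_one w (by rw [map_one])]
    rw [unr1_red_eq_iff, hζ.pow_eq_one, sub_self, map_zero]
    exact zero_lt_one
  · intro l hl0 hlm hl
    rw [← unr1_red_pow w hζ1 l (unr1_val_pow_le_one w hζ1 l),
      ← unr1_red_one w (by rw [map_one]), unr1_red_eq_iff] at hl
    have hne : ζ ^ l ≠ ζ ^ 0 := by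
      rw [pow_zero]
      exact hζ.pow_ne_one_of_pos_of_lt hl0.ne' hlm
    have := unr1_val_sub_pow w h hm hζ l 0 hne
    rw [pow_zero] at this
    rw [this] at hl
    exact lt_irrefl _ hl

end Fermat.Agent.F4.Loc
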